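import Mathlib

/-!
# A compactness (König) argument over a complete noetherian local ring (helper134)

`exists_forall_good_h134`: `Good N v` a property of `v mod 𝔪 ^ N`, inherited from level `N + 1`
to level `N`, and satisfied by some `v` for every `N`; then some `v` satisfies it for all `N`.
Mathlib only.
-/

set_option autoImplicit false
set_option linter.style.haveILetI false

open IsLocalRing

namespace Fermat.Agent.S59.NMP.H134

theorem exists_forall_good_h134 {A : Type*} [CommRing A] [IsLocalRing A] [IsNoetherianRing A]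
    [IsAdicComplete (maximalIdeal A) A] [Finite (ResidueField A)]
    (Good : ℕ → A → Prop)
    (hmono : ∀ N v, Good (N + 1) v → Good N v)
    (hcongr : ∀ N v v', Good N v → v - v' ∈ maximalIdeal A ^ N → Good N v')
    (hex : ∀ N, ∃ v, Good N v) :
    ∃ v, ∀ N, Good N v := by
  classical
  have hmono' : ∀ N M v, N ≤ M → Good M v → Good N v := by
    intro N M v hNM
    induction M, hNM using Nat.le_induction with
    | base => exact id
    | succ M _ ih => exact fun h => ih (hmono M v h)
  haveI hfinm : Finite (A ⧸ maximalIdeal A) := ‹Finite (ResidueField A)›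
  have hfin : ∀ N, Finite (A ⧸ maximalIdeal A ^ N) := fun N =>
    Ideal.finite_quotient_pow (IsNoetherian.noetherian _) N
  -- extendable elements
  let Ext : ℕ → A → Prop := fun N v => ∀ M, N ≤ M → ∃ w, Good M w ∧ w - v ∈ maximalIdeal A ^ N
  have h0 : Ext 0 0 := by
    intro M _
    obtain ⟨w, hw⟩ := hex M
    exact ⟨w, hw, by rw [pow_zero, Ideal.one_eq_top]; exact Submodule.mem_top⟩
  have hstep : ∀ N v, Ext N v → ∃ v', Ext (N + 1) v' ∧ v' - v ∈ maximalIdeal A ^ N := by
    intro N v hv
    choose w hwG hwv using fun M : ℕ => hv (M + (N + 1)) (by omega)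
    haveI := hfin (N + 1)
    obtain ⟨q, hq⟩ := Finite.exists_infinite_fiber
      (fun M : ℕ => Ideal.Quotient.mk (maximalIdeal A ^ (N + 1)) (w M))
    have hqS : (((fun M : ℕ => Ideal.Quotient.mk (maximalIdeal A ^ (N + 1)) (w M)) ⁻¹' {q} :
        Set ℕ)).Infinite := Set.infinite_coe_iff.mp hq
    obtain ⟨M₀, hM₀⟩ := hqS.nonempty
    refine ⟨w M₀, ?_, hwv M₀⟩
    intro M hM
    obtain ⟨M', hM'q, hM'⟩ := hqS.exists_gt M
    refine ⟨w M', hmono' M _ _ (by omega) (hwG M'), ?_⟩
    have h1 : Ideal.Quotient.mk (maximalIdeal A ^ (N + 1)) (w M') =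
        Ideal.Quotient.mk (maximalIdeal A ^ (N + 1)) (w M₀) := by
      have a1 : Ideal.Quotient.mk (maximalIdeal A ^ (N + 1)) (w M') = q := hM'q
      have a2 : Ideal.Quotient.mk (maximalIdeal A ^ (N + 1)) (w M₀) = q := hM₀
      rw [a1, a2]
    exact Ideal.Quotient.eq.mp h1
  -- the sequence
  let s : ℕ → {x : ℕ × A // Ext x.1 x.2} := fun N =>
    Nat.rec (motive := fun _ => {x : ℕ × A // Ext x.1 x.2}) ⟨(0, 0), h0⟩
      (fun _ x => ⟨(x.1.1 + 1, (hstep x.1.1 x.1.2 x.2).choose),
        (hstep x.1.1 x.1.2 x.2).choose_spec.1⟩) N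
  have hs0 : s 0 = ⟨(0, 0), h0⟩ := rfl
  have hsS : ∀ N, s (N + 1) = ⟨((s N).1.1 + 1, (hstep (s N).1.1 (s N).1.2 (s N).2).choose),
      (hstep (s N).1.1 (s N).1.2 (s N).2).choose_spec.1⟩ := fun N => rfl
  have hs1 : ∀ N, (s N).1.1 = N := by
    intro N
    induction N with
    | zero => rfl
    | succ N ih => rw [hsS]; simp only; rw [ih]
  let t : ℕ → A := fun N => (s N).1.2
  have htE : ∀ N, Ext N (t N) := by
    intro N
    have := (s N).2
    rwa [hs1 N] at this
  have htS : ∀ N, t (N + 1) - t N ∈ maximalIdeal A ^ N := by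
    intro N
    have key : ∀ (I J : Ideal A) (x : A), I = J → x ∈ I → x ∈ J := fun _ _ _ h hx => h ▸ hx
    have h1 := key _ _ _ (congrArg (fun k => maximalIdeal A ^ k) (hs1 N))
      (hstep (s N).1.1 (s N).1.2 (s N).2).choose_spec.2
    have h2 : t (N + 1) = (hstep (s N).1.1 (s N).1.2 (s N).2).choose := by
      show (s (N + 1)).1.2 = _
      rw [hsS]
    rw [h2]
    exact h1
  have htC : ∀ m n, m ≤ n → t n - t m ∈ maximalIdeal A ^ m := by
    intro m n hmn
    induction n, hmn using Nat.le_induction with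
    | base => rw [sub_self]; exact Ideal.zero_mem _
    | succ n hmn ih =>
      have h1 : t (n + 1) - t m = (t (n + 1) - t n) + (t n - t m) := by ring
      rw [h1]
      exact Ideal.add_mem _ (Ideal.pow_le_pow_right hmn (htS n)) ih
  have hprec := (inferInstance : IsAdicComplete (maximalIdeal A) A).toIsPrecomplete
  obtain ⟨L, hL⟩ := hprec.prec' t (fun {m n} hmn => by
    rw [SModEq.sub_mem, smul_eq_mul, Ideal.mul_top]
    have := htC m n hmn
    rw [← neg_sub]
    exact Ideal.neg_mem_iff _ |>.mpr this)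
  refine ⟨L, fun N => ?_⟩
  obtain ⟨w, hwG, hw⟩ := htE N N le_rfl
  refine hcongr N w L hwG ?_
  have h1 := hL N
  rw [SModEq.sub_mem, smul_eq_mul, Ideal.mul_top] at h1
  have h2 : w - L = (w - t N) + (t N - L) := by ring
  rw [h2]
  exact Ideal.add_mem _ hw h1

end Fermat.Agent.S59.NMP.H134
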