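import Mathlib

/-!
# Finite duality (helper134)

`exists_eval_eq_h134`: for a finite commutative group `G` and a commutative monoid `M` with
enough roots of unity, every homomorphism `κ : (G →* Mˣ) →* Mˣ` is the evaluation at some
`g : G`.  Mathlib only.
-/

set_option autoImplicit false

namespace Fermat.Agent.S59.NMP.H134

/-- **Double duality** for finite commutative groups. -/
theorem exists_eval_eq_h134 (G : Type*) [CommGroup G] [Finite G] (M : Type*) [CommMonoid M]
    [HasEnoughRootsOfUnity M (Monoid.exponent G)] (κ : (G →* Mˣ) →* Mˣ) :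
    ∃ g : G, ∀ χ : G →* Mˣ, κ χ = χ g := by
  classical
  obtain ⟨e⟩ := CommGroup.monoidHom_mulEquiv_of_hasEnoughRootsOfUnity G M
  haveI : Finite (G →* Mˣ) := Finite.of_equiv G e.symm.toEquiv
  have hexp : Monoid.exponent (G →* Mˣ) = Monoid.exponent G := Monoid.exponent_eq_of_mulEquiv e
  haveI : HasEnoughRootsOfUnity M (Monoid.exponent (G →* Mˣ)) := by rw [hexp]; infer_instance
  obtain ⟨e'⟩ := CommGroup.monoidHom_mulEquiv_of_hasEnoughRootsOfUnity (G →* Mˣ) M
  haveI : Finite ((G →* Mˣ) →* Mˣ) := Finite.of_equiv (G →* Mˣ) e'.symm.toEquiv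
  let ev : G →* ((G →* Mˣ) →* Mˣ) := MonoidHom.eval
  have hev : ∀ g χ, ev g χ = χ g := fun g χ => rfl
  have hinj : Function.Injective ev := by
    rw [injective_iff_map_eq_one]
    intro g hg
    by_contra hne
    obtain ⟨φ, hφ⟩ := CommGroup.exists_apply_ne_one_of_hasEnoughRootsOfUnity G M hne
    apply hφ
    rw [← hev, hg]
    rfl
  have hcard : Nat.card ((G →* Mˣ) →* Mˣ) = Nat.card G := by
    rw [CommGroup.card_monoidHom_of_hasEnoughRootsOfUnity,
      CommGroup.card_monoidHom_of_hasEnoughRootsOfUnity]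
  have hbij : Function.Bijective ev :=
    (Nat.bijective_iff_injective_and_card ev).mpr ⟨hinj, hcard.symm⟩
  obtain ⟨g, hg⟩ := hbij.2 κ
  exact ⟨g, fun χ => by rw [← hg, hev]⟩

end Fermat.Agent.S59.NMP.H134
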