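import Fermat.Agent.S59.NMP.H134.LocVal
import Fermat.Agent.S59.NMP.Sel.Spec
import Fermat.Agent.Lib.Cheb.H643.FrobAt

/-!
# Row S59, NMP-SEL, leaf (K): `kumVal : Sel.KumValStatement` (helper134)

The frozen leaf (K) of `NMP/Sel/Spec.lean` (sub-architect helper139) from `locVal`
(`NMP/H134/LocVal.lean`): a Frobenius element at `P` lies in the decomposition group, and an
additive character of a group killed by `pⁿ` is `ζ ^ ξ` for an additive map `ξ` to `ℤ/pⁿ`.
-/

set_option autoImplicit false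
set_option linter.style.haveILetI false
set_option linter.unusedSectionVars false
set_option linter.unusedVariables false

open IsLocalRing

namespace Fermat.Agent.S59.NMP.H134

open Fermat.Agent.S59.H649 (Qb GQ IsOrdLineAt)

/-- An additive character of a group killed by `m` is `ζ ^ ξ`, `ξ` additive with values in
`ℤ/m`. -/
theorem exists_addHom_of_addChar {M : Type*} [AddCommGroup M] {m : ℕ} [NeZero m] {ζ : Qb}
    (hζ : IsPrimitiveRoot ζ m) (hM : ∀ x : M, m • x = 0) (χ : AddChar M Qb) :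
    ∃ ξ : M →+ ZMod m, ∀ x, χ x = ζ ^ (ξ x).val := by
  classical
  have hζ1 : ζ ^ m = 1 := hζ.pow_eq_one
  have h1 : ∀ x : M, ∃ i : ℕ, i < m ∧ ζ ^ i = χ x := by
    intro x
    have hx : χ x ^ m = 1 := by
      rw [← AddChar.map_nsmul_eq_pow, hM x, AddChar.map_zero_eq_one]
    exact hζ.eq_pow_of_pow_eq_one hx
  choose i hi hiχ using h1
  have hval : ∀ x, ((i x : ℕ) : ZMod m).val = i x := fun x => ZMod.val_natCast_of_lt (hi x)
  have hinj : ∀ a b : ZMod m, ζ ^ a.val = ζ ^ b.val → a = b := by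
    intro a b hab
    have h2 := hζ.pow_inj (ZMod.val_lt a) (ZMod.val_lt b) hab
    exact ZMod.val_injective m h2
  refine ⟨{ toFun := fun x => ((i x : ℕ) : ZMod m)
            map_zero' := ?_
            map_add' := ?_ }, fun x => ?_⟩
  · apply hinj
    rw [hval, hiχ, AddChar.map_zero_eq_one, ZMod.val_zero, pow_zero]
  · intro x y
    apply hinj
    rw [Fermat.Agent.S59.H649.zeta_pow_val_add_h649 hζ1, hval, hval, hval, hiχ, hiχ, hiχ,
      AddChar.map_add_eq_mul]
  · show χ x = ζ ^ (((i x : ℕ) : ZMod m)).val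
    rw [hval, hiχ]

/-- `IsPeuMod` implies the frozen `Sel.IsPeuLevel`. -/
theorem isPeuLevel_of_isPeuMod {p : ℕ} (hp : p.Prime) {A : Type} [CommRing A] [IsLocalRing A]
    {ρ : GaloisRepAdic A} {P : ValuationSubring Qb} {I : Ideal A} (h : IsPeuMod p ρ P I) :
    Fermat.Agent.S59.NMP.Sel.IsPeuLevel ρ P I := by
  obtain ⟨n, ζ, hζ, hpI, hB⟩ := h
  haveI : NeZero (p ^ n) := ⟨pow_ne_zero _ hp.ne_zero⟩
  intro χ x
  have hM : ∀ y : ρ.V ⧸ (I • (⊤ : Submodule A ρ.V)), (p ^ n) • y = 0 := by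
    intro y
    obtain ⟨w, rfl⟩ := Submodule.Quotient.mk_surjective _ y
    rw [← Submodule.Quotient.mk_smul, Submodule.Quotient.mk_eq_zero,
      ← Nat.cast_smul_eq_nsmul A]
    exact Submodule.smul_mem_smul hpI Submodule.mem_top
  obtain ⟨ξ, hξ⟩ := exists_addHom_of_addChar hζ hM χ
  obtain ⟨B, hBv, hBσ⟩ := hB ξ x
  exact ⟨B, hBv, fun σ hσ => by rw [hBσ σ hσ, hξ]⟩

/-- **(K)** the Kummer valuation element (frozen shape of `NMP/Sel/Spec.lean`). -/
theorem kumVal : Fermat.Agent.S59.NMP.Sel.KumValStatement := by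
  intro p _ hp2 A _ _ _ _ _ ρ hdet P hP L hL a ha
  have hp : p.Prime := Fact.out
  obtain ⟨φ, hφ⟩ := Fermat.Agent.Lib.Cheb.H643.exists_isFrobeniusAt p hp P hP
  have hφD : φ ∈ P.decompositionSubgroup ℚ := hφ.mem_decompositionSubgroup
  obtain ⟨v, hv0, hv⟩ := locVal p hp2 A ρ hdet P hP L hL φ hφD a (ha φ hφ)
  exact ⟨v, hv0, fun I hI hvI => isPeuLevel_of_isPeuMod hp (hv I hI hvI)⟩

end Fermat.Agent.S59.NMP.H134
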