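import Fermat.Agent.S59.NMP.H134.ValFin
import Fermat.Agent.S59.NMP.H134.Compact
import Fermat.Agent.S56.H966.CondBC

/-!
# Row S59, NMP-SEL: LOCVAL and LOCFLAT (helper134)

* `locVal : LocValStatement` — from `valFin` by the compactness lemma `exists_forall_good_h134`.
* `locFlat_of : PeuHopfStatement → LocFlatStatement` — the quotient by `v` is flat
  (level by level transport of the Hopf models along `V / f⁻¹(I) V ≃ (B ⊗ V) / I (B ⊗ V)`).
-/

set_option autoImplicit false
set_option linter.style.haveILetI false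
set_option linter.unusedSectionVars false
set_option linter.unusedVariables false

open IsLocalRing

namespace Fermat.Agent.S59.NMP.H134

open Fermat.Agent.S59.H649 (Qb GQ IsOrdLineAt)

/-- **LOCVAL** from VALFIN. -/
theorem locVal_of_valFin (hVF : ValFinStatement) : LocValStatement := by
  intro p _ hp2 A _ _ _ _ _ ρ hdet P hP L hL σ hσ z hz
  haveI hfinm : Finite (A ⧸ maximalIdeal A) := ‹Finite (ResidueField A)›
  have hfin : ∀ N, Finite (A ⧸ maximalIdeal A ^ N) := fun N =>
    Ideal.finite_quotient_pow (IsNoetherian.noetherian _) N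
  obtain ⟨v, hv⟩ := exists_forall_good_h134 (A := A)
    (fun N v => (z ^ 2 - 1) * v ∈ maximalIdeal A ^ N ∧
      ∀ I : Ideal A, maximalIdeal A ^ N ≤ I → v ∈ I → IsPeuMod p ρ P I)
    (fun N v h => ⟨Ideal.pow_le_pow_right (Nat.le_succ N) h.1,
      fun I hI hvI => h.2 I (le_trans (Ideal.pow_le_pow_right (Nat.le_succ N)) hI) hvI⟩)
    (fun N v v' h hvv' => ⟨by
        have h1 : (z ^ 2 - 1) * v' = (z ^ 2 - 1) * v - (z ^ 2 - 1) * (v - v') := by ring
        rw [h1]
        exact Ideal.sub_mem _ h.1 (Ideal.mul_mem_left _ _ hvv'),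
      fun I hI hv'I => h.2 I hI (by
        have h1 : v = v' + (v - v') := by ring
        rw [h1]
        exact I.add_mem hv'I (hI hvv'))⟩)
    (fun N => hVF p hp2 A ρ hdet P hP L hL σ hσ z hz (maximalIdeal A ^ N) (hfin N))
  refine ⟨v, ?_, fun I hI hvI => ?_⟩
  · have hH : IsHausdorff (maximalIdeal A) A := inferInstance
    apply hH.haus'
    intro N
    rw [SModEq.zero, smul_eq_mul, Ideal.mul_top]
    exact (hv N).1
  · haveI := hI
    obtain ⟨N, hN⟩ := exists_pow_le_of_finite_quotient_h134 I
    exact (hv N).2 I hN hvI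

/-- **LOCVAL.** -/
theorem locVal : LocValStatement := locVal_of_valFin valFin

/-- **LOCFLAT** from PEUHOPF. -/
theorem locFlat_of (hPH : PeuHopfStatement) : LocFlatStatement := by
  intro p _ hp2 A _ _ _ _ _ ρ hdet P hP L hL σ hσ z hz
  obtain ⟨v, hv0, hv⟩ := locVal p hp2 A ρ hdet P hP L hL σ hσ z hz
  refine ⟨v, hv0, fun B _ _ f hf hsurj hfv => ?_⟩
  letI : Algebra A B := f.toAlgebra
  haveI := hf
  refine ⟨?_, fun I hI => ?_⟩
  · refine Finite.of_surjective (IsLocalRing.ResidueField.map f) ?_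
    intro y
    obtain ⟨b, rfl⟩ := IsLocalRing.residue_surjective y
    obtain ⟨a, rfl⟩ := hsurj b
    exact ⟨IsLocalRing.residue A a, IsLocalRing.ResidueField.map_residue f a⟩
  · haveI := hI
    have hJ : Finite (A ⧸ I.comap f) :=
      Finite.of_injective _ (Ideal.quotientMap_injective (I := I) (f := f))
    have hvJ : v ∈ I.comap f := by
      rw [Ideal.mem_comap, hfv]
      exact I.zero_mem
    obtain ⟨H, i1, i2, hHfin, hHflat, hHco, e, he_add, he_gal⟩ :=
      hPH p hp2 A ρ hdet P hP L hL (I.comap f) hJ (hv (I.comap f) hJ hvJ)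
    refine ⟨H, i1, i2, hHfin, hHflat, hHco, ?_⟩
    refine ⟨e.trans (Equiv.ofBijective (Fermat.Agent.S56.H966.levelMap (V := ρ.V) f I)
      ⟨Fermat.Agent.S56.H966.levelMap_injective f I,
        Fermat.Agent.S56.H966.levelMap_surjective f hsurj I⟩), ?_, ?_⟩
    · intro g g'
      change Fermat.Agent.S56.H966.levelMap f I (e (g * g')) =
        Fermat.Agent.S56.H966.levelMap f I (e g) + Fermat.Agent.S56.H966.levelMap f I (e g')
      rw [he_add, map_add]
    · intro τ g g' hgg'
      change Fermat.Agent.S56.H966.levelMap f I (e g') =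
        (ρ.baseChangeAlong f hf).levelAction I τ (Fermat.Agent.S56.H966.levelMap f I (e g))
      rw [he_gal τ g g' hgg']
      exact Fermat.Agent.S56.H966.levelMap_levelAction f hf ρ I τ (e g)

end Fermat.Agent.S59.NMP.H134
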