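import Fermat.Agent.S59.NMP.H134.KumVal
import Fermat.Agent.S59.NMP.Sel.Glue
import Fermat.Agent.S59.NMP.H139.PeuHopf

/-!
# Row S59, cell NMP, leaf SEL — CLOSED (helper134 + helper139)

`sel : NMP.SelStatement` (verbatim, unconditional):
`Sel.sel_of` (glue, helper139) applied to `H139.peuHopf` (leaf (F), helper139) and `kumVal`
(leaf (K), helper134: finite level Kummer valuation `valFin` + compactness `locVal`).
-/

set_option autoImplicit false

namespace Fermat.Agent.S59.NMP.H134

/-- **SEL** (the Selmer step at `p`): `#Φ_{R'}(x ∘ β) ≤ #Φ_R(x) · #(𝒪/(α² − 1))`. -/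
theorem sel : Fermat.Agent.S59.NMP.SelStatement :=
  Fermat.Agent.S59.NMP.Sel.sel_of Fermat.Agent.S59.NMP.H139.peuHopf kumVal

end Fermat.Agent.S59.NMP.H134
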