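import Fermat.Agent.S59.NMP.Spec
import Fermat.Agent.S59.H649.StrictSpec
import Fermat.Agent.S19.Defs

/-!
# Row S59, cell NMP, leaf SEL (subtask 739) — second-level interface (sub-architect helper134)

Goal: `NMP.SelStatement` (`#Φ_{R'}(x ∘ β) ≤ #Φ_R(x) · #(𝒪/(α² − 1))`, `R` flat, `R'` ordinary).

Route (no duality, no cohomology groups): there is ONE element `v ∈ R'` ("the valuation of the
Kummer class of the universal ordinary deformation") with

* `(z² − 1) · v = 0`, `z` = the scalar by which a Frobenius at `P | p` acts on `V / L`;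
* every finite level `R' / I` with `v ∈ I` is peu ramifié at `P`, hence has a Hopf model;

so `R' / (v)` carries a FLAT deformation, `R → R' / (v)` exists by universality, and the kernel of
`Φ_{R'} → Φ_R` is generated by the class of `v`, which is killed by `α² − 1`.

Leaves (each a `Prop`; DONE when `theorem foo : FooStatement` is on main):

* `ValFinStatement`  (VALFIN)   finite level Kummer theory at `p`: for `J` of finite index there is
      `v` with `(z² − 1) v ∈ J` and `v ∈ I ⟹ IsPeuMod I` for all `I ⊇ J`.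
      [Hilbert 90 on `I_P` (`S59.H649.hilbert90_subgroup`) gives a Kummer generator `y_ξ` of
      `τ ↦ ζ ^ ξ (C_τ)` for every additive character `ξ : A/J → ℤ/pⁿ`; `y_ξ ^ pⁿ` is inertia-fixed,
      so its valuation is `v(p) ^ k(ξ)` (`S56.H460.unrVal`); `ξ ↦ k(ξ) mod pⁿ` is additive, hence
      `k(ξ) = ξ(v)` (finite duality); conjugation by `σ ∈ D_P` (`S59.H649.kummer_core_h649`-type
      computation, `σ` preserves the valuation) gives `k(ξ ∘ z⁻²) = k(ξ)`.]
* `PeuHopfStatement` (PEUHOPF)  ordinary line + cyclotomic determinant + `IsPeuMod I` ⟹ Hopf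
      model of `V / I V`.  [Port of `S59.H566.{PeuCoord, PeuFlat}` from `p` to `pⁿ`:
      `Ψ_{(v₀, ξ)}(m) = ζ ^ ξ(m − v₀) · B(v₀, ξ)` on `v₀ + L`, `0` elsewhere.]

Proved by helper134 (files `NMP/H134/*.lean`):
`locVal_of_valFin : ValFinStatement → LocValStatement` (compactness) and
`sel_of_leaves : ValFinStatement → PeuHopfStatement → NMP.SelStatement` (deformation theory).

Definitions only.
-/

set_option autoImplicit false

open IsLocalRing

namespace Fermat.Agent.S59.NMP.H134

open Fermat.Agent.S59.H649 (Qb GQ IsOrdLineAt)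

/-- **Peu ramifié at the finite level `I`** (Kummer form, on ALL of the inertia group): for some
`n` with `pⁿ ∈ I` and some primitive `pⁿ`-th root of unity `ζ`, every cocycle
`σ ↦ ζ ^ ξ (σ m − m)` (`m ∈ V / I V`, `ξ : V / I V → ℤ/pⁿ` additive) of `I_P` is the Kummer
cocycle `σ ↦ σ B / B` of a `P`-unit `B`. -/
def IsPeuMod {A : Type} [CommRing A] [IsLocalRing A] (p : ℕ) (ρ : GaloisRepAdic A)
    (P : ValuationSubring Qb) (I : Ideal A) : Prop :=
  ∃ (n : ℕ) (ζ : Qb), IsPrimitiveRoot ζ (p ^ n) ∧ ((p ^ n : ℕ) : A) ∈ I ∧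
    ∀ (ξ : (ρ.V ⧸ (I • (⊤ : Submodule A ρ.V))) →+ ZMod (p ^ n))
      (m : ρ.V ⧸ (I • (⊤ : Submodule A ρ.V))),
      ∃ B : Qb, P.valuation B = 1 ∧
        ∀ σ ∈ P.inertiaSubgroupIn ℚ, σ B = ζ ^ (ξ (ρ.levelAction I σ m - m)).val * B

/-- **PEUHOPF.**  A finite level of an ordinary representation with cyclotomic determinant which
is peu ramifié at ONE place `P | p` has a Hopf model (finite flat group scheme over `ℤ_(p)`). -/
def PeuHopfStatement : Prop :=
  ∀ (p : ℕ) [Fact p.Prime], p ≠ 2 →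
    ∀ (A : Type) [CommRing A] [IsLocalRing A] [Finite (ResidueField A)] (ρ : GaloisRepAdic A),
      ρ.DetIsCyclotomic p →
      ∀ P : ValuationSubring Qb, P.LiesOverPrime p →
      ∀ L : Submodule A ρ.V, IsOrdLineAt ρ P L →
      ∀ I : Ideal A, Finite (A ⧸ I) → IsPeuMod p ρ P I →
        Fermat.Agent.S19.HopfModel p (ρ.V ⧸ (I • (⊤ : Submodule A ρ.V)))
          (fun σ m => ρ.levelAction I σ m)

/-- **VALFIN.**  Finite level form of "the valuation of the Kummer class": `σ ∈ D_P` acts on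
`V / L` by `z`; for every ideal `J` of finite index there is `v` with `(z² − 1) v ∈ J` such that
every level `I ⊇ J` containing `v` is peu ramifié at `P`. -/
def ValFinStatement : Prop :=
  ∀ (p : ℕ) [Fact p.Prime], p ≠ 2 →
    ∀ (A : Type) [CommRing A] [IsLocalRing A] [Finite (ResidueField A)] (ρ : GaloisRepAdic A),
      ρ.DetIsCyclotomic p →
      ∀ P : ValuationSubring Qb, P.LiesOverPrime p →
      ∀ L : Submodule A ρ.V, IsOrdLineAt ρ P L →
      ∀ σ ∈ P.decompositionSubgroup ℚ, ∀ z : A, (∀ w : ρ.V, ρ.ρ σ w - z • w ∈ L) →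
      ∀ J : Ideal A, Finite (A ⧸ J) →
        ∃ v : A, (z ^ 2 - 1) * v ∈ J ∧
          ∀ I : Ideal A, J ≤ I → v ∈ I → IsPeuMod p ρ P I

/-- **LOCVAL** (`= VALFIN` + compactness).  Over a complete noetherian local ring there is one
`v` with `(z² − 1) v = 0` such that every finite level containing `v` is peu ramifié. -/
def LocValStatement : Prop :=
  ∀ (p : ℕ) [Fact p.Prime], p ≠ 2 →
    ∀ (A : Type) [CommRing A] [IsLocalRing A] [IsNoetherianRing A]
      [IsAdicComplete (maximalIdeal A) A] [Finite (ResidueField A)] (ρ : GaloisRepAdic A),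
      ρ.DetIsCyclotomic p →
      ∀ P : ValuationSubring Qb, P.LiesOverPrime p →
      ∀ L : Submodule A ρ.V, IsOrdLineAt ρ P L →
      ∀ σ ∈ P.decompositionSubgroup ℚ, ∀ z : A, (∀ w : ρ.V, ρ.ρ σ w - z • w ∈ L) →
        ∃ v : A, (z ^ 2 - 1) * v = 0 ∧
          ∀ I : Ideal A, Finite (A ⧸ I) → v ∈ I → IsPeuMod p ρ P I

/-- **LOCFLAT** (`= LOCVAL` + PEUHOPF): the quotient by `v` is flat at `p`. -/
def LocFlatStatement : Prop :=
  ∀ (p : ℕ) [Fact p.Prime], p ≠ 2 →
    ∀ (A : Type) [CommRing A] [IsLocalRing A] [IsNoetherianRing A]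
      [IsAdicComplete (maximalIdeal A) A] [Finite (ResidueField A)] (ρ : GaloisRepAdic A),
      ρ.DetIsCyclotomic p →
      ∀ P : ValuationSubring Qb, P.LiesOverPrime p →
      ∀ L : Submodule A ρ.V, IsOrdLineAt ρ P L →
      ∀ σ ∈ P.decompositionSubgroup ℚ, ∀ z : A, (∀ w : ρ.V, ρ.ρ σ w - z • w ∈ L) →
        ∃ v : A, (z ^ 2 - 1) * v = 0 ∧
          ∀ (B : Type) [CommRing B] [IsLocalRing B] (f : A →+* B) (hf : IsLocalHom f),
            Function.Surjective f → f v = 0 → (ρ.baseChangeAlong f hf).IsFlatAt p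

end Fermat.Agent.S59.NMP.H134
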