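import Fermat.Agent.S59.H649.TresStrict
import Fermat.Agent.S56.H460.UnrVal
import Fermat.Agent.S59.NMP.H134.Duality

/-!
# Row S59, NMP-SEL, leaf VALFIN — the abstract Kummer valuation (helper134)

`P | p` a place of `ℚ̄`, `I = I_P`, `R` a finite ring killed by `pⁿ`, `c : G_ℚ → R` a cocycle on
`I` for the cyclotomic action, continuous.  For every character `χ` of `(R, +)` the cocycle
`γ ↦ χ (c γ)` has a Kummer generator `y` (Hilbert 90); `y ^ pⁿ` is inertia-fixed, so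
`v_P(y) ^ pⁿ = v_P(p) ^ k`, and `k mod pⁿ` depends only on `χ`, additively.  By finite duality:

`exists_kummerVal` : there is `v : R` with `χ v = ζ ^ k` for all such `(χ, y, k)`.

Consequences: `χ v = 1 ⟹` the cocycle `γ ↦ χ (c γ)` is the Kummer cocycle of a `P`-unit
(`exists_unit_of_apply_eq_one`), and `(x − a z) v = 0` for the entries `x, z` of `σ ∈ D_P` with
cyclotomic exponent `a` (`sub_mul_kummerVal_eq_zero`).
-/

set_option autoImplicit false
set_option linter.style.haveILetI false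
set_option linter.unusedSectionVars false
set_option linter.unusedVariables false

namespace Fermat.Agent.S59.NMP.H134

open Fermat.Agent.S59.H649 (Qb GQ)

attribute [local instance] Fermat.Agent.S55.Bridge.isGalois_Qbar

/-- the additive character `R → ℚ̄` attached to `χ : Multiplicative R →* ℚ̄ˣ` -/
noncomputable def chr {R : Type*} [CommRing R] (χ : Multiplicative R →* Qbˣ) (t : R) : Qb :=
  ((χ (Multiplicative.ofAdd t) : Qbˣ) : Qb)

section Chr

variable {R : Type*} [CommRing R] (χ χ' : Multiplicative R →* Qbˣ)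

theorem chr_zero : chr χ 0 = 1 := by
  show ((χ (Multiplicative.ofAdd 0) : Qbˣ) : Qb) = 1
  rw [ofAdd_zero, map_one, Units.val_one]

theorem chr_add (s t : R) : chr χ (s + t) = chr χ s * chr χ t := by
  show ((χ (Multiplicative.ofAdd (s + t)) : Qbˣ) : Qb) = _
  rw [ofAdd_add, map_mul, Units.val_mul]
  rfl

theorem chr_ne_zero (t : R) : chr χ t ≠ 0 := Units.ne_zero _

theorem chr_natCast_mul (k : ℕ) (t : R) : chr χ ((k : R) * t) = chr χ t ^ k :=
  Fermat.Agent.S59.H649.charFun_nsmul (chr χ) (chr_zero χ) (chr_add χ) k t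

theorem chr_pow_eq_one {m : ℕ} (hm : (m : R) = 0) (t : R) : chr χ t ^ m = 1 :=
  Fermat.Agent.S59.H649.charFun_pow_eq_one (chr χ) (chr_zero χ) (chr_add χ) hm t

theorem chr_mul_apply (t : R) : chr (χ * χ') t = chr χ t * chr χ' t := by
  show (((χ * χ') (Multiplicative.ofAdd t) : Qbˣ) : Qb) = _
  rw [MonoidHom.mul_apply, Units.val_mul]
  rfl

theorem chr_one_apply (t : R) : chr (1 : Multiplicative R →* Qbˣ) t = 1 := rfl

/-- the character `t ↦ χ (r t)` -/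
noncomputable def chrMul (r : R) : Multiplicative R →* Qbˣ :=
  χ.comp (AddMonoidHom.toMultiplicative (AddMonoidHom.mulLeft r))

theorem chr_chrMul (r t : R) : chr (chrMul χ r) t = chr χ (r * t) := rfl

/-- characters separate the points of a finite ring -/
theorem eq_zero_of_forall_chr_eq_one [Finite R] {t : R}
    (h : ∀ χ : Multiplicative R →* Qbˣ, chr χ t = 1) : t = 0 := by
  by_contra hne
  haveI : NeZero ((Monoid.exponent (Multiplicative R) : ℕ) : ℚ) :=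
    ⟨Nat.cast_ne_zero.mpr Monoid.exponent_ne_zero_of_finite⟩
  have hne' : Multiplicative.ofAdd t ≠ 1 := fun h' => hne (by simpa using h')
  obtain ⟨φ, hφ⟩ := CommGroup.exists_apply_ne_one_of_hasEnoughRootsOfUnity
    (Multiplicative R) Qb hne'
  apply hφ
  apply Units.ext
  exact h φ

end Chr

section Kummer

variable {p : ℕ} (P : ValuationSubring Qb)
  {R : Type*} [CommRing R] (n : ℕ)
  (e : GQ → ℕ) (c : GQ → R)

/-- `y` is a Kummer generator of the cocycle `γ ↦ χ (c γ)` of the inertia group. -/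
def IsKumGen (χ : Multiplicative R →* Qbˣ) (y : Qb) : Prop :=
  y ≠ 0 ∧ ∀ γ ∈ P.inertiaSubgroupIn ℚ, γ y = chr χ (c γ) * y

/-- `k` is a valuation exponent of the Kummer class of `χ ∘ c`. -/
def IsKumVal (p : ℕ) (χ : Multiplicative R →* Qbˣ) (k : ℤ) : Prop :=
  ∃ y : Qb, IsKumGen P c χ y ∧ P.valuation y ^ (p ^ n) = P.valuation ((p : ℕ) : Qb) ^ k

variable {P n e c}

theorem isKumGen_one : IsKumGen P c (1 : Multiplicative R →* Qbˣ) 1 :=
  ⟨one_ne_zero, fun γ _ => by rw [map_one, chr_one_apply, one_mul]⟩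

theorem IsKumGen.mul {χ χ' : Multiplicative R →* Qbˣ} {y y' : Qb} (h : IsKumGen P c χ y)
    (h' : IsKumGen P c χ' y') : IsKumGen P c (χ * χ') (y * y') :=
  ⟨mul_ne_zero h.1 h'.1, fun γ hγ => by
    rw [map_mul, h.2 γ hγ, h'.2 γ hγ, chr_mul_apply]; ring⟩

theorem isKumVal_one : IsKumVal P n c p (1 : Multiplicative R →* Qbˣ) 0 :=
  ⟨1, isKumGen_one, by rw [map_one, one_pow, zpow_zero]⟩

theorem IsKumVal.mul {χ χ' : Multiplicative R →* Qbˣ} {k k' : ℤ}
    (hp0 : P.valuation ((p : ℕ) : Qb) ≠ 0)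
    (h : IsKumVal P n c p χ k) (h' : IsKumVal P n c p χ' k') :
    IsKumVal P n c p (χ * χ') (k + k') := by
  obtain ⟨y, hy, hk⟩ := h
  obtain ⟨y', hy', hk'⟩ := h'
  exact ⟨y * y', hy.mul hy', by rw [map_mul, mul_pow, hk, hk', zpow_add₀ hp0]⟩

section WithP

variable (hp : p.Prime) (hP : P.LiesOverPrime p)
include hp hP

theorem valuation_p_ne_zero : P.valuation ((p : ℕ) : Qb) ≠ 0 := by
  rw [Ne, map_eq_zero]
  exact_mod_cast hp.ne_zero

theorem valuation_p_lt_one : P.valuation ((p : ℕ) : Qb) < 1 :=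
  (ValuationSubring.mem_nonunits_iff P).mp hP

/-- an inertia-fixed Kummer generator: the valuation exponent is divisible by `pⁿ` -/
theorem IsKumGen.exists_val (hm : ((p ^ n : ℕ) : R) = 0) {χ : Multiplicative R →* Qbˣ} {y : Qb}
    (h : IsKumGen P c χ y) : ∃ k : ℤ, IsKumVal P n c p χ k := by
  have hfix : ∀ γ ∈ P.inertiaSubgroupIn ℚ, γ (y ^ (p ^ n)) = y ^ (p ^ n) := by
    intro γ hγ
    rw [map_pow, h.2 γ hγ, mul_pow, chr_pow_eq_one χ hm, one_mul]
  obtain ⟨k, hk⟩ := Fermat.Agent.S56.H460.unrVal p hp P hP (y ^ (p ^ n))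
    (pow_ne_zero _ h.1) hfix
  exact ⟨k, y, h, by rw [← map_pow, hk]⟩

/-- the valuation exponent is well defined modulo `pⁿ` -/
theorem IsKumVal.dvd_sub {χ : Multiplicative R →* Qbˣ} {k k' : ℤ}
    (h : IsKumVal P n c p χ k) (h' : IsKumVal P n c p χ k') : ((p ^ n : ℕ) : ℤ) ∣ k - k' := by
  obtain ⟨y, hy, hk⟩ := h
  obtain ⟨y', hy', hk'⟩ := h'
  have hp0 := valuation_p_ne_zero hp hP
  have hfix : ∀ γ ∈ P.inertiaSubgroupIn ℚ, γ (y / y') = y / y' := by
    intro γ hγ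
    rw [map_div₀, hy.2 γ hγ, hy'.2 γ hγ]
    have := chr_ne_zero χ (c γ)
    field_simp
  obtain ⟨j, hj⟩ := Fermat.Agent.S56.H460.unrVal p hp P hP (y / y')
    (div_ne_zero hy.1 hy'.1) hfix
  have hy'0 : P.valuation y' ≠ 0 := (Valuation.ne_zero_iff _).mpr hy'.1
  have h1 : P.valuation ((p : ℕ) : Qb) ^ (k - k') =
      P.valuation ((p : ℕ) : Qb) ^ (j * ((p ^ n : ℕ) : ℤ)) := by
    rw [zpow_sub₀ hp0, ← hk, ← hk', zpow_mul, ← hj, map_div₀, zpow_natCast, div_pow]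
  have h2 := (zpow_right_inj₀ (zero_lt_iff.mpr hp0) (valuation_p_lt_one hp hP).ne).mp h1
  exact ⟨j, by rw [h2, mul_comm]⟩

end WithP

end Kummer

section Main

variable {p : ℕ} (hp : p.Prime) {P : ValuationSubring Qb} (hP : P.LiesOverPrime p)
  {R : Type*} [CommRing R] [Finite R] {n : ℕ} (hm : ((p ^ n : ℕ) : R) = 0)
  {e : GQ → ℕ} (he : ∀ γ, ∀ μ : Qb, μ ^ p ^ n = 1 → γ μ = μ ^ (e γ))
  {c : GQ → R}
  (hc : ∀ γ ∈ P.inertiaSubgroupIn ℚ, ∀ γ' ∈ P.inertiaSubgroupIn ℚ,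
    c (γ * γ') = (e γ : R) * c γ' + c γ)
  (E : IntermediateField ℚ Qb) [FiniteDimensional ℚ E]
  (hlev : ∀ τ ∈ P.inertiaSubgroupIn ℚ, (∀ x ∈ E, τ x = x) → c τ = 0)

include hm he hc hlev in
/-- **Hilbert 90**: every character has a Kummer generator. -/
theorem exists_isKumGen (χ : Multiplicative R →* Qbˣ) : ∃ y, IsKumGen P c χ y := by
  obtain ⟨y, hy0, hy⟩ := Fermat.Agent.S59.H649.hilbert90_subgroup (K := ℚ) (Ω := Qb)
    (P.inertiaSubgroupIn ℚ) (fun γ => chr χ (c γ)) (fun γ _ => chr_ne_zero χ _)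
    (fun γ hγ γ' hγ' => by
      show chr χ (c (γ * γ')) = chr χ (c γ) * γ (chr χ (c γ'))
      rw [hc γ hγ γ' hγ', chr_add, chr_natCast_mul, he γ _ (chr_pow_eq_one χ hm _), mul_comm])
    E (fun γ hγ τ hτ hfix => by
      show chr χ (c (γ * τ)) = chr χ (c γ)
      rw [hc γ hγ τ hτ, hlev τ hτ hfix, mul_zero, zero_add])
  exact ⟨y, hy0, hy⟩

include hp hP hm he hc hlev in
theorem exists_isKumVal (χ : Multiplicative R →* Qbˣ) : ∃ k : ℤ, IsKumVal P n c p χ k := by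
  obtain ⟨y, hy⟩ := exists_isKumGen hm he hc E hlev χ
  exact hy.exists_val hp hP hm

include hp hP hm he hc hlev in
/-- **The valuation of the Kummer class.** -/
theorem exists_kummerVal {ζ : Qb} (hζ : IsPrimitiveRoot ζ (p ^ n)) :
    ∃ v : R, ∀ (χ : Multiplicative R →* Qbˣ) (k : ℤ), IsKumVal P n c p χ k →
      chr χ v = ζ ^ k := by
  classical
  have hpn : p ^ n ≠ 0 := pow_ne_zero _ hp.ne_zero
  have hζ0 : ζ ≠ 0 := hζ.ne_zero hpn
  have hp0 := valuation_p_ne_zero (P := P) hp hP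
  let ζu : Qbˣ := Units.mk0 ζ hζ0
  have hζu : ∀ k : ℤ, ((ζu ^ k : Qbˣ) : Qb) = ζ ^ k := fun k => by
    rw [Units.val_zpow_eq_zpow_val]; rfl
  choose kf hkf using exists_isKumVal hp hP hm he hc E hlev
  have hζk : ∀ k k' : ℤ, ((p ^ n : ℕ) : ℤ) ∣ k - k' → ζu ^ k = ζu ^ k' := by
    intro k k' hd
    have h1 : ζu ^ (k - k') = 1 := by
      apply Units.ext
      rw [hζu, Units.val_one]
      exact (hζ.zpow_eq_one_iff_dvd _).mpr hd
    rw [zpow_sub, mul_inv_eq_one] at h1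
    exact h1
  let κ : (Multiplicative R →* Qbˣ) →* Qbˣ :=
    { toFun := fun χ => ζu ^ kf χ
      map_one' := by
        show ζu ^ kf 1 = 1
        rw [hζk _ 0 (by simpa using (hkf 1).dvd_sub hp hP isKumVal_one), zpow_zero]
      map_mul' := fun χ χ' => by
        show ζu ^ kf (χ * χ') = ζu ^ kf χ * ζu ^ kf χ'
        rw [← zpow_add]
        exact hζk _ _ ((hkf (χ * χ')).dvd_sub hp hP ((hkf χ).mul hp0 (hkf χ'))) }
  haveI : NeZero ((Monoid.exponent (Multiplicative R) : ℕ) : ℚ) :=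
    ⟨Nat.cast_ne_zero.mpr Monoid.exponent_ne_zero_of_finite⟩
  obtain ⟨g, hg⟩ := exists_eval_eq_h134 (Multiplicative R) Qb κ
  refine ⟨g.toAdd, fun χ k hk => ?_⟩
  have h1 : κ χ = χ g := hg χ
  show ((χ (Multiplicative.ofAdd g.toAdd) : Qbˣ) : Qb) = ζ ^ k
  rw [ofAdd_toAdd, ← h1]
  show ((ζu ^ kf χ : Qbˣ) : Qb) = ζ ^ k
  rw [hζk _ _ ((hkf χ).dvd_sub hp hP hk), hζu]

include hp hP hm he hc hlev in
/-- a character killing `v` gives a peu ramifié Kummer class -/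
theorem exists_unit_of_chr_eq_one {ζ : Qb} (hζ : IsPrimitiveRoot ζ (p ^ n)) {v : R}
    (hv : ∀ (χ : Multiplicative R →* Qbˣ) (k : ℤ), IsKumVal P n c p χ k → chr χ v = ζ ^ k)
    (χ : Multiplicative R →* Qbˣ) (hχ : chr χ v = 1) :
    ∃ B : Qb, P.valuation B = 1 ∧ ∀ γ ∈ P.inertiaSubgroupIn ℚ, γ B = chr χ (c γ) * B := by
  obtain ⟨k, y, hy, hk⟩ := exists_isKumVal hp hP hm he hc E hlev χ
  have hp0 := valuation_p_ne_zero (P := P) hp hP
  have h1 : ζ ^ k = 1 := by rw [← hv χ k ⟨y, hy, hk⟩, hχ]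
  obtain ⟨j, rfl⟩ := (hζ.zpow_eq_one_iff_dvd k).mp h1
  refine ⟨y / ((p : ℕ) : Qb) ^ j, ?_, ?_⟩
  · have h2 : (P.valuation (y / ((p : ℕ) : Qb) ^ j)) ^ (p ^ n) = 1 := by
      rw [map_div₀, div_pow, hk, map_zpow₀, ← zpow_natCast (P.valuation ((p : ℕ) : Qb) ^ j),
        ← zpow_mul, mul_comm j, div_self]
      exact zpow_ne_zero _ hp0
    exact (pow_eq_one_iff_left (pow_ne_zero n hp.ne_zero)).mp h2
  · intro γ hγ
    rw [map_div₀, map_zpow₀, map_natCast, hy.2 γ hγ, mul_div_assoc]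

include hp hP hm he hc hlev in
/-- **Conjugation by the decomposition group**: `(x − a z) v = 0`. -/
theorem sub_mul_kummerVal_eq_zero {ζ : Qb} (hζ : IsPrimitiveRoot ζ (p ^ n)) {v : R}
    (hv : ∀ (χ : Multiplicative R →* Qbˣ) (k : ℤ), IsKumVal P n c p χ k → chr χ v = ζ ^ k)
    {σ : GQ} (hσ : σ ∈ P.decompositionSubgroup ℚ) (a : ℕ)
    (ha : ∀ μ : Qb, μ ^ p ^ n = 1 → σ μ = μ ^ a) (x z cσ : R)
    (hcj : ∀ γ ∈ P.inertiaSubgroupIn ℚ,
      z * c (σ * γ * σ⁻¹) = x * c γ + (1 - (e γ : R)) * cσ) :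
    (x - (a : R) * z) * v = 0 := by
  apply eq_zero_of_forall_chr_eq_one
  intro χ
  obtain ⟨k, y, hy, hk⟩ := exists_isKumVal hp hP hm he hc E hlev (chrMul χ z)
  have hp0 := valuation_p_ne_zero (P := P) hp hP
  have hW : IsKumGen P c (chrMul χ x) ((σ⁻¹ y) ^ a * chr χ cσ) := by
    refine ⟨mul_ne_zero (pow_ne_zero _ ((map_ne_zero_iff _ (σ⁻¹).injective).mpr hy.1))
      (chr_ne_zero _ _), fun γ hγ => ?_⟩
    have hγ' := Fermat.Agent.S59.H649.conj_mem_inertiaIn_h649 P hσ hγ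
    have h0 : γ (σ⁻¹ y) = σ⁻¹ ((σ * γ * σ⁻¹) y) := by
      have h00 : γ (σ⁻¹ y) = (σ⁻¹ * (σ * γ * σ⁻¹)) y := by
        have : σ⁻¹ * (σ * γ * σ⁻¹) = γ * σ⁻¹ := by group
        rw [this]
        rfl
      rw [h00, AlgEquiv.mul_apply]
    have h1 : γ (σ⁻¹ y) = σ⁻¹ (chr χ (z * c (σ * γ * σ⁻¹))) * σ⁻¹ y := by
      rw [h0, hy.2 _ hγ', map_mul, chr_chrMul]
    have h2 : (σ⁻¹ (chr χ (z * c (σ * γ * σ⁻¹)))) ^ a = chr χ (z * c (σ * γ * σ⁻¹)) :=
      Fermat.Agent.S59.H649.inv_apply_pow_h649 σ ha (chr_pow_eq_one χ hm _)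
    have h3 : chr χ (x * c γ + (1 - (e γ : R)) * cσ) * chr χ cσ ^ (e γ) =
        chr χ (x * c γ) * chr χ cσ := by
      rw [← chr_natCast_mul, ← chr_add, ← chr_add]
      congr 1
      ring
    rw [map_mul, map_pow, h1, mul_pow, h2, hcj γ hγ, he γ _ (chr_pow_eq_one χ hm cσ),
      chr_chrMul]
    linear_combination (σ⁻¹ y) ^ a * h3
  have hkW : IsKumVal P n c p (chrMul χ x) ((a : ℤ) * k) := by
    refine ⟨_, hW, ?_⟩
    rw [map_mul, map_pow, Fermat.Agent.A2.IF.H429.valuation_map_eq P (inv_mem hσ) y,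
      Fermat.Agent.S59.H649.valuation_eq_one_of_pow_h649 P (pow_ne_zero n hp.ne_zero)
        (chr_pow_eq_one χ hm cσ), mul_one, ← pow_mul, mul_comm a, pow_mul, hk,
      ← zpow_natCast (P.valuation ((p : ℕ) : Qb) ^ k), ← zpow_mul, mul_comm]
  have e1 := hv _ _ hkW
  have e2 := hv _ _ ⟨y, hy, hk⟩
  rw [chr_chrMul] at e1 e2
  have h4 : chr χ ((x - (a : R) * z) * v) * chr χ ((a : R) * (z * v)) = chr χ (x * v) := by
    rw [← chr_add]
    congr 1
    ring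
  rw [chr_natCast_mul, e1, e2, ← zpow_natCast (ζ ^ k), ← zpow_mul, mul_comm k] at h4
  have hne : ζ ^ ((a : ℤ) * k) ≠ 0 := zpow_ne_zero _ (hζ.ne_zero (pow_ne_zero _ hp.ne_zero))
  exact mul_right_cancel₀ hne (by rw [h4, one_mul])

end Main

end Fermat.Agent.S59.NMP.H134
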