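import Fermat.Agent.S59.NMP.H134.SelSpec
import Fermat.Agent.S59.NMP.H134.ValKummer

/-!
# Row S59, NMP-SEL, leaf VALFIN (helper134): `valFin : ValFinStatement`

Finite level Kummer theory at `p` for an ordinary representation: the abstract valuation
`exists_kummerVal` applied to the upper right matrix entry modulo `J`.
-/

set_option autoImplicit false
set_option linter.style.haveILetI false
set_option linter.unusedSectionVars false
set_option linter.unusedVariables false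

open IsLocalRing

namespace Fermat.Agent.S59.NMP.H134

open Fermat.Agent.S59.H649 (Qb GQ IsOrdLineAt cX cC cZ)

/-- An ideal of finite index of a local ring contains a power of the maximal ideal
(no noetherian hypothesis). -/
theorem exists_pow_le_of_finite_quotient_h134 {A : Type*} [CommRing A] [IsLocalRing A]
    (J : Ideal A) [Finite (A ⧸ J)] : ∃ N : ℕ, maximalIdeal A ^ N ≤ J := by
  obtain ⟨N, hN⟩ := (IsArtinianRing.isNilpotent_jacobson_bot (R := A ⧸ J))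
  refine ⟨N, fun x hx => ?_⟩
  have h1 : (maximalIdeal A).map (Ideal.Quotient.mk J) ≤ Ideal.jacobson (⊥ : Ideal (A ⧸ J)) := by
    rw [Ideal.map_le_iff_le_comap]
    intro y hy
    rw [Ideal.mem_comap, Ideal.mem_jacobson_bot]
    intro w
    obtain ⟨w', rfl⟩ := Ideal.Quotient.mk_surjective w
    rw [← map_mul, ← map_one (Ideal.Quotient.mk J), ← map_add]
    apply IsUnit.map
    have h2 : y * w' ∈ maximalIdeal A := Ideal.mul_mem_right _ _ hy
    by_contra hnu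
    have h3 : y * w' + 1 ∈ maximalIdeal A := (mem_maximalIdeal _).mpr hnu
    have h4 : (1 : A) ∈ maximalIdeal A := by
      have := Ideal.sub_mem _ h3 h2
      rwa [add_sub_cancel_left] at this
    exact (Ideal.ne_top_iff_one _).mp (maximalIdeal.isMaximal A).ne_top h4
  have h5 : Ideal.Quotient.mk J x ∈ Ideal.jacobson (⊥ : Ideal (A ⧸ J)) ^ N := by
    refine Ideal.pow_right_mono h1 N ?_
    rw [← Ideal.map_pow]
    exact Ideal.mem_map_of_mem _ hx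
  rw [hN, Ideal.zero_eq_bot, Ideal.mem_bot] at h5
  exact Ideal.Quotient.eq_zero_iff_mem.mp h5

/-- a natural number prime to `p` is a unit in a ring killed by a power of `p` -/
theorem isUnit_natCast_of_coprime_h134 {R : Type*} [CommRing R] {p n a : ℕ}
    (hm : ((p ^ n : ℕ) : R) = 0) (ha : a.Coprime (p ^ n)) : IsUnit (a : R) := by
  have hcop : IsCoprime (a : ℤ) ((p ^ n : ℕ) : ℤ) := Nat.isCoprime_iff_coprime.mpr ha
  obtain ⟨u, w, huw⟩ := hcop
  have h1 : (u : R) * a + (w : R) * ((p ^ n : ℕ) : R) = 1 := by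
    have := congrArg (Int.cast : ℤ → R) huw
    push_cast at this
    push_cast
    exact this
  rw [hm, mul_zero, add_zero] at h1
  exact isUnit_iff_exists_inv.mpr ⟨(u : R), by rw [mul_comm]; exact h1⟩

/-- the character `t ↦ ζ ^ ℓ(t)` of `R` attached to an additive map `ℓ : R → ℤ/m` -/
noncomputable def chrOf {R : Type*} [CommRing R] {m : ℕ} [NeZero m] {ζ : Qb} (hζ : ζ ^ m = 1)
    (ℓ : R →+ ZMod m) : Multiplicative R →* Qbˣ where
  toFun g := Units.mk0 (ζ ^ (ℓ g.toAdd).val) (pow_ne_zero _ (by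
    intro h0
    rw [h0, zero_pow (NeZero.ne m)] at hζ
    exact zero_ne_one hζ))
  map_one' := by
    apply Units.ext
    show ζ ^ (ℓ 0).val = 1
    rw [map_zero, ZMod.val_zero, pow_zero]
  map_mul' g h := by
    apply Units.ext
    show ζ ^ (ℓ (g.toAdd + h.toAdd)).val = ζ ^ (ℓ g.toAdd).val * ζ ^ (ℓ h.toAdd).val
    rw [map_add, Fermat.Agent.S59.H649.zeta_pow_val_add_h649 hζ]

theorem chr_chrOf {R : Type*} [CommRing R] {m : ℕ} [NeZero m] {ζ : Qb} (hζ : ζ ^ m = 1)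
    (ℓ : R →+ ZMod m) (t : R) : chr (chrOf hζ ℓ) t = ζ ^ (ℓ t).val := rfl

/-- **VALFIN.** -/
theorem valFin : ValFinStatement := by
  intro p _ hp2 A _ _ _ ρ hdet P hP L hL σ hσ z hz J hJ
  classical
  have hp : p.Prime := Fact.out
  obtain ⟨b, rfl⟩ := hL.basis
  haveI := hJ
  obtain ⟨n, hnJ⟩ := exists_pow_le_of_finite_quotient_h134 J
  have hpJ : ((p ^ n : ℕ) : A) ∈ J := by
    apply hnJ
    rw [Nat.cast_pow]
    exact Ideal.pow_mem_pow hdet.1 n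
  haveI : NeZero (p ^ n) := ⟨pow_ne_zero _ hp.ne_zero⟩
  haveI : NeZero (((p ^ n : ℕ) : ℕ) : ℚ) := ⟨Nat.cast_ne_zero.mpr (NeZero.ne (p ^ n))⟩
  obtain ⟨ζ, hζ⟩ := HasEnoughRootsOfUnity.exists_primitiveRoot Qb (p ^ n)
  have hζ1 : ζ ^ (p ^ n) = 1 := hζ.pow_eq_one
  let mk : A →+* A ⧸ J := Ideal.Quotient.mk J
  have hmk0 : ∀ t : A, mk t = 0 ↔ t ∈ J := fun t => Ideal.Quotient.eq_zero_iff_mem
  have hm : (((p ^ n : ℕ) : ℕ) : A ⧸ J) = 0 := by
    have := (hmk0 _).mpr hpJ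
    rwa [map_natCast] at this
  -- bookkeeping
  have hstab : ∀ τ ∈ P.decompositionSubgroup ℚ, ρ.ρ τ (b 0) ∈ Submodule.span A {b 0} :=
    fun τ hτ => hL.stable τ hτ _ (Submodule.mem_span_singleton_self _)
  have hID : ∀ γ ∈ P.inertiaSubgroupIn ℚ, γ ∈ P.decompositionSubgroup ℚ :=
    fun γ hγ => Fermat.Agent.A2.IF.H429.decomp_of_inertia P hγ
  have hZ1 : ∀ γ ∈ P.inertiaSubgroupIn ℚ, cZ b (ρ.ρ γ) = 1 :=
    fun γ hγ => Fermat.Agent.S59.H649.cZ_eq_one b (hL.inertia γ hγ (b 1))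
  have hXdet : ∀ γ ∈ P.inertiaSubgroupIn ℚ, LinearMap.det (ρ.ρ γ) = cX b (ρ.ρ γ) := by
    intro γ hγ
    rw [Fermat.Agent.S59.H649.det_eq_mul b (hstab γ (hID γ hγ)), hZ1 γ hγ, mul_one]
  have hex : ∀ γ : GQ, ∃ e : ℕ, ∀ μ : Qb, μ ^ p ^ n = 1 → γ μ = μ ^ e :=
    fun γ => Fermat.Agent.S59.H649.exists_cycExp_h649 (p ^ n) γ
  choose e he using hex
  have hX : ∀ γ ∈ P.inertiaSubgroupIn ℚ, ∀ a' : ℕ, (∀ μ : Qb, μ ^ p ^ n = 1 → γ μ = μ ^ a') →
      mk (cX b (ρ.ρ γ)) = (a' : A ⧸ J) := by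
    intro γ hγ a' ha'
    have h1 := hdet.2 n γ a' ha'
    rw [hXdet γ hγ] at h1
    have h2 : cX b (ρ.ρ γ) - (a' : A) ∈ J :=
      (Ideal.span_singleton_le_iff_mem (I := J)).mpr hpJ h1
    have h3 := (hmk0 _).mpr h2
    rw [map_sub, map_natCast, sub_eq_zero] at h3
    exact h3
  let c : GQ → A ⧸ J := fun γ => mk (cC b (ρ.ρ γ))
  have hc : ∀ γ ∈ P.inertiaSubgroupIn ℚ, ∀ γ' ∈ P.inertiaSubgroupIn ℚ,
      c (γ * γ') = (e γ : A ⧸ J) * c γ' + c γ := by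
    intro γ hγ γ' hγ'
    show mk (cC b (ρ.ρ (γ * γ'))) = (e γ : A ⧸ J) * mk (cC b (ρ.ρ γ')) + mk (cC b (ρ.ρ γ))
    rw [map_mul, Fermat.Agent.S59.H649.cC_mul b (hstab γ (hID γ hγ)), hZ1 γ' hγ', mul_one,
      map_add, map_mul, hX γ hγ (e γ) (he γ)]
  obtain ⟨E, hEfin, hE⟩ := ρ.isAdicContinuous n
  haveI : FiniteDimensional ℚ E := hEfin
  have hlev : ∀ τ ∈ P.inertiaSubgroupIn ℚ, (∀ x ∈ E, τ x = x) → c τ = 0 := by
    intro τ _ hτ
    show mk (cC b (ρ.ρ τ)) = 0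
    rw [hmk0]
    apply hnJ
    have h1 := Fermat.Agent.S59.H649.repr_mem_of_mem_smul_top b _ (hE τ hτ (b 1)) 0
    rw [map_sub, Finsupp.sub_apply, Module.Basis.repr_self, Finsupp.single_apply,
      if_neg (by decide), sub_zero] at h1
    exact h1
  have hcj : ∀ γ ∈ P.inertiaSubgroupIn ℚ,
      mk (cZ b (ρ.ρ σ)) * c (σ * γ * σ⁻¹) =
        mk (cX b (ρ.ρ σ)) * c γ + (1 - (e γ : A ⧸ J)) * mk (cC b (ρ.ρ σ)) := by
    intro γ hγ
    have hγ' := Fermat.Agent.S59.H649.conj_mem_inertiaIn_h649 P hσ hγ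
    have h1 : ρ.ρ (σ * γ * σ⁻¹) * ρ.ρ σ = ρ.ρ σ * ρ.ρ γ := by
      rw [← map_mul, ← map_mul]
      congr 1
      group
    have h2 := congrArg (cC b) h1
    rw [Fermat.Agent.S59.H649.cC_mul b (hstab _ (hID _ hγ')),
      Fermat.Agent.S59.H649.cC_mul b (hstab σ hσ), hZ1 γ hγ, mul_one] at h2
    have h3 := congrArg mk h2
    rw [RingHom.map_add, RingHom.map_add, RingHom.map_mul, RingHom.map_mul, RingHom.map_mul] at h3
    have hcyc : ∀ μ : Qb, μ ^ p ^ n = 1 → (σ * γ * σ⁻¹) μ = μ ^ (e γ) := by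
      intro μ hμ
      have hμ' : (σ⁻¹ μ) ^ p ^ n = 1 := by rw [← map_pow, hμ, map_one]
      show σ (γ (σ⁻¹ μ)) = μ ^ (e γ)
      rw [he γ _ hμ', map_pow]
      congr 1
      show σ (σ.symm μ) = μ
      exact σ.apply_symm_apply μ
    rw [hX _ hγ' (e γ) hcyc] at h3
    show mk (cZ b (ρ.ρ σ)) * mk (cC b (ρ.ρ (σ * γ * σ⁻¹))) =
      mk (cX b (ρ.ρ σ)) * mk (cC b (ρ.ρ γ)) + (1 - (e γ : A ⧸ J)) * mk (cC b (ρ.ρ σ))
    linear_combination h3
  -- the valuation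
  obtain ⟨vbar, hv⟩ := exists_kummerVal hp hP hm he hc E hlev hζ
  obtain ⟨v, rfl⟩ := Ideal.Quotient.mk_surjective vbar
  refine ⟨v, ?_, ?_⟩
  · -- `(z² − 1) v ∈ J`
    obtain ⟨a, ha⟩ := Fermat.Agent.S59.H649.exists_cycExp_h649 (p ^ n) σ
    have h1 := sub_mul_kummerVal_eq_zero hp hP hm he hc E hlev hζ hv hσ a ha
      (mk (cX b (ρ.ρ σ))) (mk (cZ b (ρ.ρ σ))) (mk (cC b (ρ.ρ σ))) hcj
    have hZz : cZ b (ρ.ρ σ) = z := by
      have h := Fermat.Agent.S59.H649.repr_one_of_mem_span b (hz (b 1))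
      rw [map_sub, map_smul, Finsupp.sub_apply, Finsupp.smul_apply, Module.Basis.repr_self,
        Finsupp.single_eq_same, smul_eq_mul, mul_one, sub_eq_zero] at h
      exact h
    have hXZ : mk (cX b (ρ.ρ σ)) * mk (cZ b (ρ.ρ σ)) = (a : A ⧸ J) := by
      have h2 := hdet.2 n σ a ha
      rw [Fermat.Agent.S59.H649.det_eq_mul b (hstab σ hσ)] at h2
      have h3 : cX b (ρ.ρ σ) * cZ b (ρ.ρ σ) - (a : A) ∈ J :=
        (Ideal.span_singleton_le_iff_mem (I := J)).mpr hpJ h2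
      have h4 := (hmk0 _).mpr h3
      rw [map_sub, map_mul, map_natCast, sub_eq_zero] at h4
      exact h4
    have hcop : a.Coprime (p ^ n) := by
      have h5 : IsPrimitiveRoot (σ ζ) (p ^ n) := hζ.map_of_injective σ.injective
      rw [ha ζ hζ1] at h5
      exact (hζ.pow_iff_coprime (Nat.pos_of_ne_zero (NeZero.ne _)) a).mp h5
    have hu : IsUnit ((a : ℕ) : A ⧸ J) := isUnit_natCast_of_coprime_h134 hm hcop
    rw [← hmk0, map_mul, map_sub, map_pow, map_one, ← hZz]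
    have h6 : ((a : ℕ) : A ⧸ J) * ((mk (cZ b (ρ.ρ σ)) ^ 2 - 1) * mk v) = 0 := by
      linear_combination (-mk (cZ b (ρ.ρ σ))) * h1 + mk v * hXZ
    exact (hu.mul_right_eq_zero).mp h6
  · intro I hJI hvI
    refine ⟨n, ζ, hζ, hJI hpJ, fun ξ m => ?_⟩
    obtain ⟨w, rfl⟩ := Submodule.Quotient.mk_surjective _ m
    set s : A := b.repr w 0 with hs
    set t : A := b.repr w 1 with ht
    let ℓ0 : A →+ ZMod (p ^ n) :=
      ξ.comp ((Submodule.mkQ (I • (⊤ : Submodule A ρ.V))).toAddMonoidHom.comp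
        ((LinearMap.toSpanSingleton A ρ.V (b 0)).toAddMonoidHom))
    have hℓ0 : ∀ r, ℓ0 r = ξ (Submodule.Quotient.mk (r • b 0)) := fun r => rfl
    have hℓ0I : ∀ r ∈ I, ℓ0 r = 0 := by
      intro r hr
      rw [hℓ0, (Submodule.Quotient.mk_eq_zero _).mpr
        (Submodule.smul_mem_smul hr Submodule.mem_top), map_zero]
    let ℓ : A ⧸ J →+ ZMod (p ^ n) :=
      QuotientAddGroup.lift J.toAddSubgroup ℓ0 (fun r hr => hℓ0I r (hJI hr))
    have hℓ : ∀ r : A, ℓ (mk r) = ℓ0 r := fun r => rfl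
    set χ₁ : Multiplicative (A ⧸ J) →* Qbˣ := chrOf hζ1 ℓ with hχ₁
    have hcoc : ∀ γ ∈ P.inertiaSubgroupIn ℚ,
        ζ ^ (ξ (ρ.levelAction I γ (Submodule.Quotient.mk w) - Submodule.Quotient.mk w)).val =
          chr χ₁ (mk s * ((e γ : A ⧸ J) - 1)) * chr χ₁ (mk t * c γ) := by
      intro γ hγ
      have hw : w = s • b 0 + t • b 1 := by
        conv_lhs => rw [← b.sum_repr w]
        rw [Fin.sum_univ_two]
      have h1 : ρ.ρ γ w - w = (s * (cX b (ρ.ρ γ) - 1) + t * cC b (ρ.ρ γ)) • b 0 := by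
        conv_lhs => rw [hw]
        rw [map_add, map_smul, map_smul, Fermat.Agent.S59.H649.apply_b0 b (hstab γ (hID γ hγ)),
          Fermat.Agent.S59.H649.apply_b1 b (ρ.ρ γ), hZ1 γ hγ]
        module
      have h2 : ρ.levelAction I γ (Submodule.Quotient.mk w) - Submodule.Quotient.mk w =
          Submodule.Quotient.mk ((s * (cX b (ρ.ρ γ) - 1) + t * cC b (ρ.ρ γ)) • b 0) := by
        rw [← h1]
        rfl
      rw [h2, ← chr_add, chr_chrOf]
      have h3 : mk s * ((e γ : A ⧸ J) - 1) + mk t * c γ =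
          mk (s * (cX b (ρ.ρ γ) - 1) + t * cC b (ρ.ρ γ)) := by
        rw [map_add, map_mul, map_mul, map_sub, map_one, hX γ hγ (e γ) (he γ)]
      rw [h3, hℓ, hℓ0]
    have hχ₂ : chr (chrMul χ₁ (mk t)) (mk v) = 1 := by
      rw [chr_chrMul, ← map_mul, chr_chrOf, hℓ, hℓ0I _ (I.mul_mem_left t hvI), ZMod.val_zero,
        pow_zero]
    obtain ⟨B₂, hB₂v, hB₂⟩ := exists_unit_of_chr_eq_one hp hP hm he hc E hlev hζ hv
      (chrMul χ₁ (mk t)) hχ₂
    have hμ : chr χ₁ (mk s) ^ (p ^ n) = 1 := chr_pow_eq_one χ₁ hm _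
    refine ⟨chr χ₁ (mk s) * B₂, ?_, fun γ hγ => ?_⟩
    · rw [map_mul, Fermat.Agent.S59.H649.valuation_eq_one_of_pow_h649 P (NeZero.ne _) hμ, hB₂v,
        mul_one]
    · rw [map_mul, hB₂ γ hγ, he γ _ hμ, hcoc γ hγ, chr_chrMul]
      have h3 : chr χ₁ (mk s * ((e γ : A ⧸ J) - 1)) * chr χ₁ (mk s) = chr χ₁ (mk s) ^ (e γ) := by
        rw [← chr_natCast_mul, ← chr_add]
        congr 1
        ring
      rw [← h3]
      ring

end Fermat.Agent.S59.NMP.H134
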